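import Fermat.Agent.GroupGalois.Gap
import Fermat.Agent.VanDerWaerden.Counting
import Mathlib.LinearAlgebra.Matrix.Charpoly.Minpoly
import Mathlib.RingTheory.AdjoinRoot

/-!
# Every admissible characteristic polynomial occurs often in `SL_n (𝔽_p)`

A companion matrix has a cyclic vector, so its centraliser in `GL_n` has at most `p ^ n` elements
and each monic `f` of degree `n` with `f (0) = (-1) ^ n` is the characteristic polynomial of at
least `(p - 1) |SL_n| / p ^ n` elements of `SL_n`.
-/

set_option autoImplicit false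

noncomputable section

namespace FA.GroupGalois

open Finset Matrix Polynomial Fermat.Agent.VanDerWaerden
open scoped Classical

variable {n : ℕ} {F : Type*} [Field F]

/-- A matrix with a given characteristic polynomial and a cyclic vector. -/
theorem exists_cyclic {f : F[X]} (hf : f.Monic) (hd : f.natDegree = n) (hn : 0 < n) :
    ∃ C : Matrix (Fin n) (Fin n) F, C.charpoly = f ∧
      ∀ j : Fin n, (C ^ (j : ℕ)).col ⟨0, hn⟩ = Pi.single j 1 := by
  set pb := AdjoinRoot.powerBasis hf.ne_zero
  have hdim : pb.dim = n := hd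
  subst hdim
  refine ⟨Algebra.leftMulMatrix pb.basis pb.gen, ?_, fun j => ?_⟩
  · rw [charpoly_leftMulMatrix]
    exact AdjoinRoot.minpoly_powerBasis_gen_of_monic hf
  · funext i
    rw [← map_pow, Matrix.col_apply, Algebra.leftMulMatrix_eq_repr_mul, pb.basis_eq_pow,
      pow_zero, mul_one, ← pb.basis_eq_pow, Module.Basis.repr_self, Finsupp.single_eq_pi_single]

/-- A matrix commuting with a cyclic one is determined by its first column. -/
theorem eq_of_commute {C h h' : Matrix (Fin n) (Fin n) F} {hn : 0 < n}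
    (hC : ∀ j : Fin n, (C ^ (j : ℕ)).col ⟨0, hn⟩ = Pi.single j 1) (hh : Commute h C)
    (hh' : Commute h' C) (h0 : h.col ⟨0, hn⟩ = h'.col ⟨0, hn⟩) : h = h' := by
  refine Matrix.ext_of_mulVec_single fun j => ?_
  have key : ∀ {g : Matrix (Fin n) (Fin n) F}, Commute g C →
      g *ᵥ Pi.single j 1 = (C ^ (j : ℕ)) *ᵥ g.col ⟨0, hn⟩ := fun {g} hg => by
    rw [← hC j, ← mulVec_single_one, mulVec_mulVec, (hg.pow_right _).eq, ← mulVec_mulVec,
      mulVec_single_one]
  rw [key hh, key hh', h0]

variable [Fintype F] [DecidableEq F]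

/-- **Each characteristic polynomial occurs often.** -/
theorem card_charpoly_ge {f : F[X]} (hf : f.Monic) (hd : f.natDegree = n) (hn : 0 < n)
    (h0 : f.coeff 0 = (-1) ^ n) :
    (Fintype.card F - 1) * Fintype.card (SLn n F) ≤
      Fintype.card F ^ n * #(univ.filter fun g : SLn n F => g.1.charpoly = f) := by
  obtain ⟨C, hCf, hC⟩ := exists_cyclic hf hd hn
  -- `SL_n × Fˣ` injects into `GL_n`
  set D : Fˣ → GL (Fin n) F := fun u =>
    GeneralLinearGroup.mkOfDetNeZero (diagonal (Function.update 1 ⟨0, hn⟩ (u : F)))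
      (by rw [det_diagonal, prod_update_of_mem (mem_univ _)]; simp)
  have hGL : (Fintype.card F - 1) * Fintype.card (SLn n F) ≤ Fintype.card (GL (Fin n) F) := by
    rw [← Fintype.card_units, mul_comm, ← Fintype.card_prod]
    refine Fintype.card_le_of_injective
      (fun z => SpecialLinearGroup.toGL z.1 * D z.2) fun z z' e => ?_
    have hv := congrArg (fun h : GL (Fin n) F => (h : Matrix (Fin n) (Fin n) F)) e
    simp only [Units.val_mul] at hv
    have hdet := congrArg Matrix.det hv
    simp only [det_mul, D, GeneralLinearGroup.val_mkOfDetNeZero, det_diagonal,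
      prod_update_of_mem (mem_univ _)] at hdet
    simp only [Pi.one_apply, prod_const_one, mul_one] at hdet
    change z.1.1.det * (z.2 : F) = z'.1.1.det * (z'.2 : F) at hdet
    rw [z.1.2, z'.1.2, one_mul, one_mul] at hdet
    have h2 : z.2 = z'.2 := Units.ext hdet
    simp only [h2] at e
    exact Prod.ext (SpecialLinearGroup.toGL_injective (mul_right_cancel e)) h2
  refine hGL.trans ?_
  set A := univ.filter fun g : SLn n F => g.1.charpoly = f
  have hmem : ∀ h : GL (Fin n) F, ((h : Matrix (Fin n) (Fin n) F) * C *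
      ((h⁻¹ : GL (Fin n) F) : Matrix (Fin n) (Fin n) F)).charpoly = f := fun h => by
    rw [show ((h⁻¹ : GL (Fin n) F) : Matrix (Fin n) (Fin n) F) = (h.1)⁻¹ from coe_units_inv h,
      charpoly_units_conj, hCf]
  have hdet : ∀ h : GL (Fin n) F, ((h : Matrix (Fin n) (Fin n) F) * C *
      ((h⁻¹ : GL (Fin n) F) : Matrix (Fin n) (Fin n) F)).det = 1 := fun h => by
    rw [Matrix.det_eq_sign_charpoly_coeff, hmem, h0, Fintype.card_fin, ← mul_pow, neg_one_mul,
      neg_neg, one_pow]
  refine (card_le_mul_card_image (f := fun h : GL (Fin n) F => (⟨_, hdet h⟩ : SLn n F)) univ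
    (Fintype.card F ^ n) fun g _ => ?_).trans (Nat.mul_le_mul_left _ (card_le_card fun g hg => ?_))
  · -- a fibre is a coset of the centraliser of `C`
    set Z := univ.filter fun h : GL (Fin n) F => (⟨_, hdet h⟩ : SLn n F) = g
    rcases Z.eq_empty_or_nonempty with hZ | ⟨h₀, hh₀⟩
    · show #Z ≤ _
      simp [hZ]
    refine (card_le_card_of_injOn
      (fun h : GL (Fin n) F => ((h₀⁻¹ * h : GL (Fin n) F) : Matrix (Fin n) (Fin n) F).col ⟨0, hn⟩)
      (t := (univ : Finset (Fin n → F))) (fun _ _ => by simp) fun h hh h' hh' e => ?_).trans_eq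
      (by simp)
    have hcomm : ∀ h ∈ Z, Commute ((h₀⁻¹ * h : GL (Fin n) F) : Matrix (Fin n) (Fin n) F) C := by
      intro h hh
      have e1 := congrArg Subtype.val ((mem_filter.1 hh₀).2.trans (mem_filter.1 hh).2.symm)
      simp only at e1
      show _ * C = C * _
      have e2 := congrArg (fun M => ((h₀⁻¹ : GL (Fin n) F) : Matrix (Fin n) (Fin n) F) * M *
        (h : Matrix (Fin n) (Fin n) F)) e1
      simp only [Units.val_mul]
      simpa [mul_assoc] using e2.symm
    have := eq_of_commute hC (hcomm h hh) (hcomm h' hh') e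
    exact mul_left_cancel (Units.ext this)
  · obtain ⟨h, -, rfl⟩ := mem_image.1 hg
    exact mem_filter.2 ⟨mem_univ _, hmem h⟩

/-- A set of monic polynomials with constant `(-1) ^ n` gives a proportion of `SL_n`. -/
theorem card_charpoly_mem_ge {p : ℕ} [Fact p.Prime] (hn : 0 < n)
    {T : Finset (Fin n → ZMod p)} (hT : ∀ a ∈ T, a ⟨0, hn⟩ = (-1) ^ n) :
    (p - 1) * Fintype.card (SLn n (ZMod p)) * #T ≤
      p ^ n *
        #(univ.filter fun g : SLn n (ZMod p) => (fun i : Fin n => g.1.charpoly.coeff i) ∈ T) := by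
  have hp := ZMod.card p
  suffices h : (Fintype.card (ZMod p) - 1) * Fintype.card (SLn n (ZMod p)) * #T ≤
      Fintype.card (ZMod p) ^ n *
        #(univ.filter fun g : SLn n (ZMod p) => (fun i : Fin n => g.1.charpoly.coeff i) ∈ T) by
    simpa only [hp] using h
  calc (Fintype.card (ZMod p) - 1) * Fintype.card (SLn n (ZMod p)) * #T
      ≤ ∑ a ∈ T, Fintype.card (ZMod p) ^ n *
          #(univ.filter fun g : SLn n (ZMod p) => g.1.charpoly = monicOf a) := by
        rw [mul_comm, ← smul_eq_mul]
        refine card_nsmul_le_sum _ _ _ fun a ha => le_trans (card_charpoly_ge (monicOf_monic a)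
          (natDegree_monicOf a) hn (by rw [coeff_monicOf, dif_pos hn, hT a ha]))
          (Nat.mul_le_mul_left _ (card_le_card fun g hg => ?_))
        simp only [mem_filter, mem_univ, true_and] at hg ⊢
        exact hg
    _ ≤ _ := by
        rw [← mul_sum, ← card_biUnion fun a _ b _ hab => disjoint_filter.2 fun g _ e e' =>
          hab (monicOf_injective (e.symm.trans e'))]
        refine Nat.mul_le_mul_left _ (card_le_card fun g hg => ?_)
        obtain ⟨a, ha, hga⟩ := mem_biUnion.1 hg
        refine mem_filter.2 ⟨mem_univ _, ?_⟩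
        convert ha using 1
        funext i
        rw [(mem_filter.1 hga).2, coeff_monicOf, dif_pos i.2]

end FA.GroupGalois

end
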