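import Fermat.Agent.GroupSieve.Equidistribution
import Fermat.Agent.Kazhdan.Applications
import Mathlib.FieldTheory.Finite.Basic
import Fermat.Agent.BourgainGamburd.Main

/-!
# Equidistribution in `SL_n (𝔽_p) × SL_n (𝔽_q)`

`SL_n (ℤ)` maps onto `SL_n (𝔽_p) × SL_n (𝔽_q)`, so property (T) gives a uniform gap there.
-/

set_option autoImplicit false

noncomputable section

namespace FA.GroupGalois

open Finset Matrix FA.BourgainGamburd
open scoped Classical

variable {n : ℕ}

/-- The special linear group. -/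
abbrev SLn (n : ℕ) (R : Type*) [CommRing R] := SpecialLinearGroup (Fin n) R

/-- Reduction modulo `m`. -/
abbrev red (n m : ℕ) : SLn n ℤ →* SLn n (ZMod m) :=
  SpecialLinearGroup.map (Int.castRingHom (ZMod m))

theorem diag2n_eq {F : Type*} [Field F] {i j : Fin n} (hij : i ≠ j) {c : F} (hc : c ≠ 0) :
    SpecialLinearGroup.diag2n hij c hc =
      SpecialLinearGroup.transvection hij c * SpecialLinearGroup.transvection hij.symm (-c⁻¹) *
        SpecialLinearGroup.transvection hij c * SpecialLinearGroup.transvection hij (-1) *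
        SpecialLinearGroup.transvection hij.symm 1 *
        SpecialLinearGroup.transvection hij (-1) := by
  refine Subtype.ext ?_
  show diagonal (fun k => if k = i then c else if k = j then c⁻¹ else 1) =
    transvection i j c * transvection j i (-c⁻¹) * transvection i j c * transvection i j (-1) *
      transvection j i 1 * transvection i j (-1)
  simp only [mul_assoc]
  ext k l
  by_cases hki : k = i
  · subst hki
    simp [hij, hij.symm, diagonal_apply]
    simp [transvection, Matrix.single_apply, hij, one_apply]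
    split_ifs <;> first | omega | simp_all
  by_cases hkj : k = j
  · subst hkj
    simp [hij, hij.symm, diagonal_apply]
    simp [transvection, Matrix.single_apply, hij, one_apply]
    split_ifs <;> first | omega | simp_all
  simp [hki, hkj, diagonal_apply]
  simp [transvection, one_apply, Ne.symm hki]

/-- Transvections generate `SL_n` of a field. -/
theorem eq_top_of_transvection_mem {F : Type*} [Field F] [NeZero n] (hn : 2 ≤ n)
    {H : Subgroup (SLn n F)}
    (h : ∀ (i j : Fin n) (hij : i ≠ j) (a : F), SpecialLinearGroup.transvection hij a ∈ H) :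
    H = ⊤ := by
  have : Nontrivial (Fin n) := Fin.nontrivial_iff_two_le.2 hn
  refine eq_top_iff.2 fun M _ => ?_
  refine SpecialLinearGroup.diagonal_transvection_induction' (· ∈ H) M (fun i j hij c hc => ?_)
    h fun A B => H.mul_mem
  rw [diag2n_eq hij hc]
  repeat' apply H.mul_mem
  all_goals apply h

theorem map_el (m : ℕ) {i j : Fin n} (hij : i ≠ j) (t : ℤ) :
    red n m (Kazhdan.el i j hij t) = SpecialLinearGroup.transvection hij (t : ZMod m) := by
  refine Subtype.ext (Matrix.ext fun a b => ?_)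
  simp [Kazhdan.el, SpecialLinearGroup.transvection_coe, transvection, Matrix.single_apply,
    one_apply, apply_ite (fun x : ℤ => (x : ZMod m))]

variable {p q : ℕ} [hp : Fact p.Prime] [hq : Fact q.Prime]

/-- `SL_n (ℤ)` maps onto the product. -/
theorem red_prod_surjective (hn : 2 ≤ n) (hpq : p ≠ q) :
    Function.Surjective ((red n p).prod (red n q)) := by
  have : NeZero n := ⟨by omega⟩
  set π := (red n p).prod (red n q)
  have hcrt : ∀ (i j : Fin n) (hij : i ≠ j) (a : ZMod p) (b : ZMod q),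
      (SpecialLinearGroup.transvection hij a, SpecialLinearGroup.transvection hij b) ∈ π.range := by
    intro i j hij a b
    obtain ⟨z, hz₁, hz₂⟩ := Nat.chineseRemainder
      ((Nat.coprime_primes hp.out hq.out).2 hpq) a.val b.val
    refine ⟨Kazhdan.el i j hij z, Prod.ext ?_ ?_⟩
    · show red n p _ = _
      rw [map_el, Int.cast_natCast, (ZMod.natCast_eq_natCast_iff _ _ _).2 hz₁,
        ZMod.natCast_zmod_val]
    · show red n q _ = _
      rw [map_el, Int.cast_natCast, (ZMod.natCast_eq_natCast_iff _ _ _).2 hz₂,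
        ZMod.natCast_zmod_val]
  have hl : π.range.comap (MonoidHom.inl _ _) = ⊤ :=
    eq_top_of_transvection_mem hn fun i j hij a => by
      have := hcrt i j hij a 0
      rwa [SpecialLinearGroup.transvection_coeff_zero] at this
  have hr : π.range.comap (MonoidHom.inr _ _) = ⊤ :=
    eq_top_of_transvection_mem hn fun i j hij b => by
      have := hcrt i j hij 0 b
      rwa [SpecialLinearGroup.transvection_coeff_zero] at this
  rintro ⟨a, b⟩
  have h1 : (a, 1) ∈ π.range := Subgroup.mem_comap.1 (hl ▸ Subgroup.mem_top a)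
  have h2 : (1, b) ∈ π.range := Subgroup.mem_comap.1 (hr ▸ Subgroup.mem_top b)
  have := π.range.mul_mem h1 h2
  rw [Prod.mk_mul_mk, mul_one, one_mul] at this
  exact this

/-- A gap passes from finitely many elements to a set generating them. -/
theorem gap_transfer {Γ : Type*} [Group Γ] {S T : Finset Γ} (hS : S.Nonempty)
    (hT : ∀ t ∈ T, t ∈ Subgroup.closure (S : Set Γ)) {γ : ℝ} (hγ : 0 < γ) :
    ∃ c : ℝ, 0 < c ∧ ∀ {G : Type} [Group G] [Fintype G] (π : Γ →* G) (f : G → ℝ),
      (∃ t ∈ T, γ * ∑ x, f x ^ 2 ≤ disp (π t) f) →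
      ∃ s ∈ S, c * ∑ x, f x ^ 2 ≤ disp (π s) f := by
  have hW := fun t : T => disp_map_le (g := (t : Γ)) (hT t t.2)
  choose W hW0 hW using hW
  set B := ∑ t, W t
  have hB : 0 ≤ B := sum_nonneg fun t _ => hW0 t
  refine ⟨γ / (B + 1), by positivity, fun π f ⟨t, ht, htγ⟩ => ?_⟩
  by_contra! hall
  set σ := ∑ x, f x ^ 2
  have hσ0 : 0 ≤ σ := sum_nonneg fun _ _ => sq_nonneg _
  have hε : 0 ≤ γ / (B + 1) * σ := by positivity
  have h1 : γ * σ ≤ B * (γ / (B + 1) * σ) :=
    htγ.trans ((hW ⟨t, ht⟩ π f _ (fun s hs => (hall s hs).le) hε).trans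
      (mul_le_mul_of_nonneg_right
        (single_le_sum (f := W) (fun t _ => hW0 t) (mem_univ (⟨t, ht⟩ : T))) hε))
  have hσ : σ = 0 := by
    have h2 : (B + 1) * (γ / (B + 1) * σ) = γ * σ := by field_simp
    have h3 : γ / (B + 1) * σ = 0 := by linarith
    exact (mul_eq_zero.1 h3).resolve_left (by positivity)
  obtain ⟨s, hs⟩ := hS
  have := hall s hs
  rw [hσ, mul_zero] at this
  linarith [disp_nonneg (π s) f]

/-- **Equidistribution modulo two primes in `SL_n (ℤ)`.** -/
theorem equidistributed (hn : 3 ≤ n) {S : Finset (SLn n ℤ)} (h1 : (1 : SLn n ℤ) ∈ S)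
    (hgen : Subgroup.closure (S : Set (SLn n ℤ)) = ⊤) :
    ∃ θ : ℝ, 0 < θ ∧ θ < 1 ∧ ∀ (p q : ℕ) [Fact p.Prime] [Fact q.Prime], p ≠ q → ∀ k z,
      |GroupSieve.hits ((red n p).prod (red n q)) S k z -
        (#S : ℝ) ^ k / Fintype.card (SLn n (ZMod p) × SLn n (ZMod q))| ≤ (#S : ℝ) ^ k * θ ^ k := by
  obtain ⟨γ, hγ, hgap⟩ := Kazhdan.exists_gap.{0} hn
  have hne : (Kazhdan.generators n).Nonempty :=
    ⟨_, Kazhdan.el_mem_generators (i := ⟨0, by omega⟩) (j := ⟨1, by omega⟩)
      (by simp [Fin.ext_iff]) (Or.inl rfl)⟩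
  have hg0 : (0 : ℝ) < #(Kazhdan.generators n) := Nat.cast_pos.2 (card_pos.2 hne)
  obtain ⟨c, hc, htr⟩ := gap_transfer (S := S) (T := Kazhdan.generators n) ⟨1, h1⟩
    (fun t _ => hgen ▸ Subgroup.mem_top t) (div_pos hγ hg0)
  obtain ⟨h0, hlt, hr⟩ := GroupSieve.rate_spec ⟨1, h1⟩ hc
  refine ⟨GroupSieve.rate S c, h0, hlt, fun p q _ _ hpq =>
    GroupSieve.abs_hits_sub_le _ h1 h0.le hr fun f hf => htr _ f ?_⟩
  set π := (red n p).prod (red n q)
  let : MulAction (SLn n ℤ) (SLn n (ZMod p) × SLn n (ZMod q)) := MulAction.compHom _ π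
  have : MulAction.IsPretransitive (SLn n ℤ) (SLn n (ZMod p) × SLn n (ZMod q)) :=
    ⟨fun x y => by
      obtain ⟨g, hg⟩ := red_prod_surjective (p := p) (q := q) (by omega) hpq (y * x⁻¹)
      exact ⟨g, show π g * x = y by rw [show π g = y * x⁻¹ from hg, inv_mul_cancel_right]⟩⟩
  have h := hgap (SLn n (ZMod p) × SLn n (ZMod q)) f hf
  by_contra! hall
  have hlt := sum_lt_sum_of_nonempty hne fun t ht => hall t ht
  rw [sum_const, nsmul_eq_mul, ← mul_assoc, mul_div_cancel₀ _ hg0.ne'] at hlt
  refine absurd (lt_of_le_of_lt ?_ hlt) (lt_irrefl _)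
  refine h.trans (le_of_eq (sum_congr rfl fun t _ => ?_))
  rw [← disp_inv, disp]
  simp only [inv_inv]
  rfl

end FA.GroupGalois

end
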