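import Fermat.Agent.VanDerWaerden.Counting
import Mathlib.FieldTheory.Finite.GaloisField
import Mathlib.RingTheory.Norm.Basic

/-!
# Factorisation types with a given constant term

Over `𝔽_p`, of the `p ^ (n - 1)` monic polynomials of degree `n` with a given nonzero constant term
a positive proportion is irreducible, linear times irreducible, or quadratic times distinct linear.
-/

set_option autoImplicit false

noncomputable section

namespace FA.GroupGalois

open Finset Polynomial Fermat.Agent.VanDerWaerden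
open scoped Classical Nat

variable {p : ℕ} [hp : Fact p.Prime]

/-- The polynomials of a type with constant term `v`. -/
def withConstant {d : ℕ} [NeZero d] (T : Finset (Fin d → ZMod p)) (v : ZMod p) :
    Finset (Fin d → ZMod p) :=
  T.filter fun a => a 0 = v

theorem norm_eq_coeff_zero {d : ℕ} {K : Type} [Field K] [Finite K] [Algebra (ZMod p) K]
    (hfr : Module.finrank (ZMod p) K = d) {x : K} (hx : (minpoly (ZMod p) x).natDegree = d) :
    Algebra.norm (ZMod p) x = (-1) ^ d * (minpoly (ZMod p) x).coeff 0 := by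
  have : Module.Finite (ZMod p) K := Module.Finite.of_finite
  set b := Module.finBasis (ZMod p) K
  set χ := (Algebra.leftMulMatrix b x).charpoly
  have hχd : χ.natDegree = d := by
    rw [Matrix.charpoly_natDegree_eq_dim, Fintype.card_fin, hfr]
  have hdvd : minpoly (ZMod p) x ∣ χ := by
    refine minpoly.dvd _ _ (Algebra.leftMulMatrix_injective b ?_)
    rw [← Polynomial.aeval_algHom_apply, map_zero]
    exact Matrix.aeval_self_charpoly _
  have hint : IsIntegral (ZMod p) x := IsIntegral.of_finite _ x
  have he : χ = minpoly (ZMod p) x := eq_of_monic_of_dvd_of_natDegree_le (minpoly.monic hint)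
    (Matrix.charpoly_monic _) hdvd (by rw [hχd, hx])
  rw [Algebra.norm_eq_matrix_det b, Matrix.det_eq_sign_charpoly_coeff, Fintype.card_fin,
    show (Algebra.leftMulMatrix b x).charpoly = minpoly (ZMod p) x from he, hfr]

/-- Few elements of `K` have degree below `d`. -/
theorem card_small_le (hp4 : 4 ≤ p) {d : ℕ} (hd : 3 ≤ d) {K : Type} [Field K] [Fintype K]
    [Algebra (ZMod p) K] (hfr : Module.finrank (ZMod p) K = d) :
    2 * #(univ.filter fun x : K => (minpoly (ZMod p) x).natDegree ≠ d) ≤ p ^ (d - 1) := by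
  have : FiniteDimensional (ZMod p) K := Module.Finite.of_finite
  have hint : ∀ x : K, IsIntegral (ZMod p) x := fun x => IsIntegral.of_finite _ x
  have hsum : ∀ m, 2 ≤ p → ∑ e ∈ range (m + 1), p ^ e ≤ 2 * p ^ m := fun m hp2 => by
    induction m with
    | zero => simp
    | succ m ih =>
      rw [sum_range_succ, pow_succ]
      have := Nat.mul_le_mul_left (p ^ m) hp2
      omega
  have hsmall : #(univ.filter fun x : K => (minpoly (ZMod p) x).natDegree ≠ d) ≤
      ∑ e ∈ range (d / 2 + 1), p ^ e := by
    refine (card_le_card (t := (range (d / 2 + 1)).biUnion fun e =>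
      ((X : K[X]) ^ p ^ e - X).roots.toFinset.filter fun _ => 0 < e) fun x hx => ?_).trans
      (card_biUnion_le.trans (sum_le_sum fun e _ => ?_))
    · have hne : (minpoly (ZMod p) x).natDegree ≠ d := (mem_filter.1 hx).2
      obtain ⟨c, hc⟩ : (minpoly (ZMod p) x).natDegree ∣ d := hfr ▸ minpoly.degree_dvd (hint x)
      set e := (minpoly (ZMod p) x).natDegree
      have he : 0 < e := minpoly.natDegree_pos (hint x)
      have hc2 : 2 ≤ c := by
        rcases c with - | - | c <;> simp_all
      have he2 : e ≤ d / 2 := by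
        rw [Nat.le_div_iff_mul_le two_pos, hc]
        exact Nat.mul_le_mul_left e hc2
      refine mem_biUnion.2 ⟨e, mem_range.2 (by omega),
        mem_filter.2 ⟨Multiset.mem_toFinset.2 ((mem_roots ?_).2 ?_), he⟩⟩
      · exact FiniteField.X_pow_card_pow_sub_X_ne_zero K he.ne' hp.out.one_lt
      · set L := IntermediateField.adjoin (ZMod p) {x}
        have : Fintype L := Fintype.ofFinite L
        have hL : Fintype.card L = p ^ e := by
          rw [Module.card_eq_pow_finrank (K := ZMod p), ZMod.card,
            IntermediateField.adjoin.finrank (hint x)]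
        have h := FiniteField.pow_card (⟨x, IntermediateField.mem_adjoin_simple_self _ x⟩ : L)
        rw [hL] at h
        have h' : x ^ p ^ e = x := congrArg Subtype.val h
        simp [IsRoot, h']
    · rcases Nat.eq_zero_or_pos e with rfl | he
      · simp
      refine (card_filter_le _ _).trans ((Multiset.toFinset_card_le _).trans
        ((card_roots' _).trans ?_))
      rw [FiniteField.X_pow_card_pow_sub_X_natDegree_eq K he.ne' hp.out.one_lt]
  calc 2 * #(univ.filter fun x : K => (minpoly (ZMod p) x).natDegree ≠ d)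
      ≤ 4 * p ^ (d / 2) := by have := hsum (d / 2) (by omega); omega
    _ ≤ p * p ^ (d / 2) := Nat.mul_le_mul_right _ hp4
    _ = p ^ (d / 2 + 1) := by ring
    _ ≤ p ^ (d - 1) := Nat.pow_le_pow_right hp.out.pos (by omega)

/-- **Irreducible polynomials with a given constant term.** -/
theorem card_irr_ge (hp4 : 4 ≤ p) {d : ℕ} [NeZero d] (hd : 3 ≤ d) {v : ZMod p} (hv : v ≠ 0) :
    p ^ (d - 1) ≤ 2 * d * #(withConstant (irrSet p d) v) := by
  set K := GaloisField p d
  let _ : Fintype K := Fintype.ofFinite _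
  have hfr : Module.finrank (ZMod p) K = d := GaloisField.finrank p (NeZero.ne d)
  have hK : Fintype.card K = p ^ d := by
    rw [← Nat.card_eq_fintype_card, GaloisField.card p d (NeZero.ne d)]
  set w : ZMod p := (-1) ^ d * v
  set Φ := Units.map (Algebra.norm (ZMod p) : K →* ZMod p)
  set fib := (univ : Finset Kˣ).filter fun x => ((Φ x : (ZMod p)ˣ) : ZMod p) = w
  -- every fibre of the norm has at least `p ^ (d - 1)` elements
  have hfib : p ^ (d - 1) ≤ #fib := by
    obtain ⟨x₀, hx₀⟩ := FiniteField.unitsMap_norm_surjective (ZMod p) K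
      (Units.mk0 w (mul_ne_zero (pow_ne_zero _ (neg_ne_zero.2 one_ne_zero)) hv))
    have hx₀' : ((Φ x₀ : (ZMod p)ˣ) : ZMod p) = w := congrArg Units.val hx₀
    have hker : Nat.card Kˣ = Nat.card (ZMod p)ˣ * Nat.card Φ.ker := by
      rw [← Subgroup.index_mul_card Φ.ker, Subgroup.index_ker,
        MonoidHom.range_eq_top.2 (FiniteField.unitsMap_norm_surjective (ZMod p) K)]
      simp
    rw [Nat.card_units, Nat.card_units, Nat.card_eq_fintype_card (α := K), hK, Nat.card_zmod,
      Nat.card_eq_fintype_card (α := Φ.ker)] at hker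
    have hle : Fintype.card Φ.ker ≤ #fib := by
      rw [← card_univ]
      refine card_le_card_of_injOn (fun y => x₀ * (y : Kˣ)) (fun y _ => ?_)
        fun y _ y' _ e => Subtype.ext (mul_left_cancel e)
      refine mem_coe.2 (mem_filter.2 ⟨mem_univ _, ?_⟩)
      rw [map_mul, MonoidHom.mem_ker.1 y.2, mul_one, hx₀']
    refine le_trans ?_ hle
    by_contra! hlt
    have h1 := Nat.mul_le_mul_left (p - 1) (show Fintype.card Φ.ker + 1 ≤ p ^ (d - 1) from hlt)
    rw [mul_add, ← hker, mul_one, Nat.sub_mul, one_mul, ← pow_succ',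
      show d - 1 + 1 = d by omega] at h1
    have h2 : 1 ≤ p ^ (d - 1) := Nat.one_le_pow _ _ hp.out.pos
    omega
  set full := fib.filter fun x : Kˣ => (minpoly (ZMod p) (x : K)).natDegree = d
  have hfull : p ^ (d - 1) ≤ 2 * #full := by
    have h1 :
        #full + #(fib.filter fun x : Kˣ => ¬(minpoly (ZMod p) (x : K)).natDegree = d) = #fib :=
      card_filter_add_card_filter_not (s := fib)
        fun x : Kˣ => (minpoly (ZMod p) (x : K)).natDegree = d
    have h2 : #(fib.filter fun x : Kˣ => ¬(minpoly (ZMod p) (x : K)).natDegree = d) ≤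
        #(univ.filter fun x : K => (minpoly (ZMod p) x).natDegree ≠ d) :=
      card_le_card_of_injOn (fun x => (x : K))
        (fun x hx => mem_coe.2 (mem_filter.2 ⟨mem_univ _, (mem_filter.1 hx).2⟩))
        Units.val_injective.injOn
    have h3 := card_small_le hp4 hd hfr
    omega
  refine hfull.trans ?_
  rw [mul_assoc]
  refine Nat.mul_le_mul_left 2 ?_
  set co : Kˣ → (Fin d → ZMod p) := fun x i => (minpoly (ZMod p) (x : K)).coeff i
  have : FiniteDimensional (ZMod p) K := Module.Finite.of_finite
  have hint : ∀ x : K, IsIntegral (ZMod p) x := fun x => IsIntegral.of_finite _ x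
  have hco : ∀ x ∈ full, monicOf (co x) = minpoly (ZMod p) (x : K) := fun x hx =>
    exists_monicOf (minpoly.monic (hint x)) (mem_filter.1 hx).2
  refine (card_le_mul_card_image (f := co) full d fun a _ => ?_).trans
    (Nat.mul_le_mul_left d (card_le_card fun a ha => ?_))
  · have h4 := card_le_degree_of_subset_roots
      (p := (monicOf a).map (algebraMap (ZMod p) K))
      (Z := (full.filter fun x => co x = a).image fun x : Kˣ => (x : K)) fun x hx => ?_
    · rw [natDegree_map, natDegree_monicOf, card_image_of_injective _ Units.val_injective] at h4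
      exact h4
    · obtain ⟨y, hy, rfl⟩ := mem_image.1 hx
      obtain ⟨hyf, hya⟩ := mem_filter.1 hy
      refine (mem_roots (map_monic_ne_zero (monicOf_monic a))).2 ?_
      rw [IsRoot, eval_map_algebraMap, ← hya, hco y hyf, minpoly.aeval]
  · obtain ⟨x, hx, rfl⟩ := mem_image.1 ha
    obtain ⟨hxfib, hxd⟩ := mem_filter.1 hx
    refine mem_filter.2 ⟨mem_irrSet.2 ?_, ?_⟩
    · rw [hco x hx]
      exact minpoly.irreducible (hint x)
    · have hn := (mem_filter.1 hxfib).2
      simp only [Φ, Units.coe_map] at hn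
      rw [norm_eq_coeff_zero hfr hxd] at hn
      exact mul_left_cancel₀ (pow_ne_zero _ (neg_ne_zero.2 one_ne_zero)) hn

/-- **Linear times irreducible with a given constant term.** -/
theorem card_rootType_ge (hp3 : 3 ≤ p) {n : ℕ} [NeZero n] (hn : 3 ≤ n) (v : ZMod p) :
    p ^ (n - 1) ≤ 2 * n * #(withConstant (rootSetType p n) v) := by
  refine (pow_le_card_irrSet hp3 (show 0 < n - 1 by omega)).trans
    (Nat.mul_le_mul (by omega) ?_)
  have hroot : ∀ a ∈ irrSet p (n - 1), ∀ c : ZMod p, (monicOf a).eval c ≠ 0 := fun a ha =>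
    no_root_of_irreducible (mem_irrSet.1 ha) (by rw [natDegree_monicOf]; omega)
  set root : (Fin (n - 1) → ZMod p) → ZMod p := fun a => -v / (monicOf a).eval 0
  refine card_le_of_monic _ (fun a => (X - C (root a)) * monicOf a) _
    (fun a _ => ⟨(monic_X_sub_C _).mul (monicOf_monic _), ?_⟩) (fun a ha b hb => ?_)
    fun a ha b hb h => ?_
  · rw [(monic_X_sub_C _).natDegree_mul (monicOf_monic _), natDegree_X_sub_C, natDegree_monicOf]
    omega
  · refine mem_filter.2 ⟨mem_rootSetType.2 ⟨root a, monicOf a, mem_irrSet.1 ha,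
      natDegree_monicOf _, hb⟩, ?_⟩
    have h0 : (monicOf b).eval 0 = b 0 := by
      rw [← coeff_zero_eq_eval_zero, coeff_monicOf, dif_pos (NeZero.pos n)]
      rfl
    rw [← h0, hb, eval_mul, eval_sub, eval_X, eval_C, zero_sub]
    simp only [root, neg_div, neg_neg]
    exact div_mul_cancel₀ v (hroot a ha 0)
  · replace h : (X - C (root a)) * monicOf a = (X - C (root b)) * monicOf b := h
    have h1 : root a = root b := by
      have h' := congrArg (eval (root a)) h
      simp only [eval_mul, eval_sub, eval_X, eval_C, sub_self, zero_mul] at h'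
      exact sub_eq_zero.1 ((mul_eq_zero.1 h'.symm).resolve_right (hroot b hb _))
    refine monicOf_injective (mul_left_cancel₀ (X_sub_C_ne_zero (root a)) ?_)
    rw [h, h1]

/-- Vectors with at most `k` choices at `i` given the others. -/
theorem card_slice_le {m k : ℕ} (i : Fin m) {S : Finset (Fin m → ZMod p)}
    (h : ∀ c : Fin m → ZMod p, #(univ.filter fun x => Function.update c i x ∈ S) ≤ k) :
    p * #S ≤ k * p ^ m := by
  have hcard : Fintype.card ({j : Fin m // j ≠ i} → ZMod p) * p = p ^ m := by
    have := Fintype.card_congr (Equiv.funSplitAt i (ZMod p))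
    rw [Fintype.card_prod, Fintype.card_fun, Fintype.card_fin, ZMod.card] at this
    rw [this, mul_comm]
  rw [mul_comm p, ← hcard, ← mul_assoc]
  refine Nat.mul_le_mul_right p ?_
  refine (card_le_mul_card_image (f := fun c (j : {j : Fin m // j ≠ i}) => c j) S k
    fun r hr => ?_).trans (Nat.mul_le_mul_left k (card_le_univ _))
  obtain ⟨c₀, -, rfl⟩ := mem_image.1 hr
  refine le_trans (card_le_card_of_injOn (fun c => c i) (fun c hc => ?_) fun c hc c' hc' e => ?_)
    (h c₀)
  · obtain ⟨hcS, hcr⟩ := mem_filter.1 hc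
    refine mem_coe.2 (mem_filter.2 ⟨mem_univ _, ?_⟩)
    convert hcS
    funext j
    by_cases hj : j = i
    · rw [hj, Function.update_self]
    · rw [Function.update_of_ne hj]
      exact (congrFun hcr ⟨j, hj⟩).symm
  · funext j
    by_cases hj : j = i
    · rw [hj]; exact e
    · exact (congrFun (mem_filter.1 hc).2 ⟨j, hj⟩).trans
        (congrFun (mem_filter.1 hc').2 ⟨j, hj⟩).symm

/-- Few vectors fail to extend to distinct roots with a given product. -/
theorem card_good_tuples_ge {m : ℕ} (hpm : 8 * (m + 1) ^ 2 ≤ p) (t : ZMod p) :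
    p ^ m ≤ 2 * #(univ.filter fun c : Fin m → ZMod p =>
      (∀ i, c i ≠ 0) ∧ Function.Injective c ∧ ∀ i, t / ∏ j, c j ≠ c i) := by
  set Z := fun i : Fin m => univ.filter fun c : Fin m → ZMod p => c i = 0
  set E := fun z : Fin m × Fin m =>
    univ.filter fun c : Fin m → ZMod p => z.1 ≠ z.2 ∧ c z.1 = c z.2
  set B := fun i : Fin m => univ.filter fun c : Fin m → ZMod p =>
    (∀ j, c j ≠ 0) ∧ t / ∏ j, c j = c i
  have hZ : ∀ i, p * #(Z i) ≤ 1 * p ^ m := fun i => card_slice_le i fun c => by
    refine card_le_one.2 fun x hx y hy => ?_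
    simp only [Z, mem_filter, mem_univ, true_and, Function.update_self] at hx hy
    rw [hx, hy]
  have hE : ∀ z, p * #(E z) ≤ 1 * p ^ m := fun z => card_slice_le z.1 fun c => by
    refine card_le_one.2 fun x hx y hy => ?_
    simp only [E, mem_filter, mem_univ, true_and, Function.update_self] at hx hy
    obtain ⟨hne, hx⟩ := hx
    rw [Function.update_of_ne (Ne.symm hne)] at hx hy
    rw [hx, hy.2]
  have hB : ∀ i, p * #(B i) ≤ 2 * p ^ m := fun i => card_slice_le i fun c => by
    set r := ∏ j ∈ univ.erase i, c j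
    have hkey : ∀ x : ZMod p, Function.update c i x ∈ B i → t = x ^ 2 * r ∧ r ≠ 0 := fun x hx => by
      simp only [B, mem_filter, mem_univ, true_and, Function.update_self] at hx
      obtain ⟨h0, hx⟩ := hx
      have hr : r ≠ 0 := prod_ne_zero_iff.2 fun j hj => by
        simpa [Function.update_of_ne (ne_of_mem_erase hj)] using h0 j
      rw [prod_update_of_mem (mem_univ i), sdiff_singleton_eq_erase,
        div_eq_iff (mul_ne_zero (by simpa using h0 i) hr)] at hx
      exact ⟨by linear_combination hx, hr⟩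
    by_contra! h2
    obtain ⟨x, hx, y, hy, z, hz, hxy, hxz, hyz⟩ := two_lt_card.1 h2
    obtain ⟨ex, hr⟩ := hkey x (mem_filter.1 hx).2
    have hsq : ∀ {a b : ZMod p}, t = a ^ 2 * r → t = b ^ 2 * r → a ≠ b → a + b = 0 := by
      intro a b ea eb hab
      refine ((mul_eq_zero (a := a - b)).1 ?_).resolve_left (sub_ne_zero.2 hab)
      refine mul_right_cancel₀ hr ?_
      linear_combination eb - ea
    refine hyz ?_
    linear_combination (hsq ex (hkey y (mem_filter.1 hy).2).1 hxy) -
      (hsq ex (hkey z (mem_filter.1 hz).2).1 hxz)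
  set good := univ.filter fun c : Fin m → ZMod p =>
      (∀ i, c i ≠ 0) ∧ Function.Injective c ∧ ∀ i, t / ∏ j, c j ≠ c i
  have hcover : goodᶜ ⊆ univ.biUnion Z ∪ univ.biUnion E ∪ univ.biUnion B := by
    intro c hc
    simp only [good, mem_compl, mem_filter, mem_univ, true_and] at hc
    simp only [mem_union, mem_biUnion, mem_univ, true_and, Z, E, B, mem_filter]
    by_contra! hcon
    obtain ⟨⟨hz, he⟩, hb⟩ := hcon
    exact hc ⟨hz, fun a b e => by_contra fun hab => he (a, b) hab e, fun i => hb i hz⟩
  have hc := (card_le_card hcover).trans ((card_union_le _ _).trans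
    (add_le_add ((card_union_le _ _).trans (add_le_add card_biUnion_le card_biUnion_le))
      card_biUnion_le))
  have hbad : p * #goodᶜ ≤ (3 * m + m * m) * p ^ m := by
    refine (Nat.mul_le_mul_left p hc).trans ?_
    rw [mul_add, mul_add, mul_sum, mul_sum, mul_sum]
    refine (add_le_add (add_le_add (sum_le_sum fun i _ => hZ i) (sum_le_sum fun i _ => hE i))
      (sum_le_sum fun i _ => hB i)).trans_eq ?_
    simp only [sum_const, card_univ, Fintype.card_prod, Fintype.card_fin, smul_eq_mul]
    ring
  have hp0 := hp.out.pos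
  have htot := card_compl_add_card good
  rw [Fintype.card_fun, Fintype.card_fin, ZMod.card] at htot
  refine le_of_mul_le_mul_left ?_ hp0
  have : (3 * m + m * m) * p ^ m * 2 ≤ p * p ^ m := by
    rw [mul_comm _ 2, ← mul_assoc]
    exact Nat.mul_le_mul_right _ (by nlinarith)
  nlinarith

/-- **Quadratic times distinct linear with a given constant term.** -/
theorem card_swapType_ge {n : ℕ} [NeZero n] (hn : 3 ≤ n) (hpn : 8 * n ^ 2 ≤ p) (v : ZMod p) :
    p ^ (n - 1) ≤ 8 * n ^ n * #(withConstant (swapType p n) v) := by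
  set m := n - 3 with hm
  have hpm : 8 * (m + 1) ^ 2 ≤ p :=
    le_trans (Nat.mul_le_mul_left 8 (Nat.pow_le_pow_left (by omega) 2)) hpn
  have hp3 : 3 ≤ p := by nlinarith
  set q0 : (Fin 2 → ZMod p) → ZMod p := fun q => (monicOf q).eval 0
  have hq0 : ∀ q ∈ irrSet p 2, ∀ c : ZMod p, (monicOf q).eval c ≠ 0 := fun q hq =>
    no_root_of_irreducible (mem_irrSet.1 hq) (natDegree_monicOf q).ge
  set t : (Fin 2 → ZMod p) → ZMod p := fun q => (-1) ^ (n - 2) * v / q0 q
  set last : (Fin 2 → ZMod p) → (Fin m → ZMod p) → ZMod p := fun q c => t q / ∏ j, c j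
  set good : (Fin 2 → ZMod p) → Finset (Fin m → ZMod p) := fun q =>
    univ.filter fun c => (∀ i, c i ≠ 0) ∧ Function.Injective c ∧ ∀ i, last q c ≠ c i
  set pairs := (irrSet p 2).sigma good
  set roots : (Σ _ : Fin 2 → ZMod p, Fin m → ZMod p) → Finset (ZMod p) :=
    fun z => insert (last z.1 z.2) (univ.image z.2)
  set F : (Σ _ : Fin 2 → ZMod p, Fin m → ZMod p) → (ZMod p)[X] :=
    fun z => monicOf z.1 * ∏ c ∈ roots z, (X - C c)
  have hlast : ∀ z ∈ pairs, last z.1 z.2 ∉ univ.image z.2 := fun z hz h => by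
    obtain ⟨i, -, hi⟩ := mem_image.1 h
    exact (mem_filter.1 (mem_sigma.1 hz).2).2.2.2 i hi.symm
  have hroots : ∀ z ∈ pairs, #(roots z) = n - 2 := fun z hz => by
    rw [card_insert_of_notMem (hlast z hz),
      card_image_of_injective _ (mem_filter.1 (mem_sigma.1 hz).2).2.2.1, card_univ,
      Fintype.card_fin]
    omega
  have hFd : ∀ z ∈ pairs, (F z).Monic ∧ (F z).natDegree = n := fun z hz => by
    refine ⟨(monicOf_monic _).mul (monic_prod_of_monic _ _ fun _ _ => monic_X_sub_C _), ?_⟩
    rw [(monicOf_monic _).natDegree_mul (monic_prod_of_monic _ _ fun _ _ => monic_X_sub_C _),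
      natDegree_monicOf, natDegree_prod_of_monic _ _ fun _ _ => monic_X_sub_C _]
    simp only [natDegree_X_sub_C, sum_const, smul_eq_mul, mul_one, hroots z hz]
    omega
  set out : (Σ _ : Fin 2 → ZMod p, Fin m → ZMod p) → Fin n → ZMod p := fun z i => (F z).coeff i
  have hout : ∀ z ∈ pairs, monicOf (out z) = F z := fun z hz =>
    exists_monicOf (hFd z hz).1 (hFd z hz).2
  have himage : pairs.image out ⊆ withConstant (swapType p n) v := fun a ha => by
    obtain ⟨z, hz, rfl⟩ := mem_image.1 ha
    have hq := (mem_sigma.1 hz).1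
    refine mem_filter.2 ⟨mem_swapType.2 ⟨roots z, monicOf z.1, mem_irrSet.1 hq,
      natDegree_monicOf _, hroots z hz, hout z hz⟩, ?_⟩
    show (F z).coeff 0 = v
    rw [coeff_zero_eq_eval_zero, eval_mul, eval_prod]
    simp only [eval_sub, eval_X, eval_C, zero_sub]
    rw [Finset.prod_neg, hroots z hz, prod_insert (hlast z hz), prod_image fun a _ b _ e =>
      (mem_filter.1 (mem_sigma.1 hz).2).2.2.1 e]
    simp only [last, t, q0]
    rw [div_mul_cancel₀ _ (prod_ne_zero_iff.2 fun i _ => (mem_filter.1 (mem_sigma.1 hz).2).2.1 i)]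
    field_simp [hq0 z.1 hq 0]
    simp [← pow_mul, pow_mul']
  have hfibre : ∀ a ∈ pairs.image out, #(pairs.filter fun z => out z = a) ≤ n ^ n := fun a ha => by
    obtain ⟨z₀, hz₀, rfl⟩ := mem_image.1 ha
    have hsame : ∀ z ∈ pairs.filter (fun z => out z = out z₀),
        roots z = roots z₀ ∧ z.1 = z₀.1 := by
      intro z hz
      obtain ⟨hzp, he⟩ := mem_filter.1 hz
      have hF : F z = F z₀ := by rw [← hout z hzp, ← hout z₀ hz₀, he]
      have hmem : ∀ z ∈ pairs, ∀ c, (F z).eval c = 0 ↔ c ∈ roots z := fun z hz c => by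
        rw [eval_mul, mul_eq_zero, or_iff_right (hq0 z.1 (mem_sigma.1 hz).1 c), eval_prod,
          prod_eq_zero_iff]
        simp [sub_eq_zero]
      have hS : roots z = roots z₀ := Finset.ext fun c => by
        rw [← hmem z hzp, hF, hmem z₀ hz₀]
      refine ⟨hS, monicOf_injective (mul_right_cancel₀
        (prod_ne_zero_iff.2 fun c _ => X_sub_C_ne_zero c : ∏ c ∈ roots z, (X - C c) ≠ 0) ?_)⟩
      show F z = _
      rw [hF, hS]
    refine le_trans (card_le_card_of_injOn (fun z => z.2)
      (t := Fintype.piFinset fun _ : Fin m => roots z₀) (fun z hz => ?_) fun z hz z' hz' e => ?_) ?_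
    · refine mem_coe.2 (Fintype.mem_piFinset.2 fun i => ?_)
      rw [← (hsame z hz).1]
      exact mem_insert_of_mem (mem_image_of_mem _ (mem_univ i))
    · exact Sigma.ext ((hsame z hz).2.trans (hsame z' hz').2.symm) (heq_of_eq e)
    · rw [Fintype.card_piFinset, prod_const, card_univ, Fintype.card_fin, hroots z₀ hz₀]
      exact (Nat.pow_le_pow_left (by omega) m).trans (Nat.pow_le_pow_right (by omega) (by omega))
  have hirr : p ^ 2 ≤ 4 * #(irrSet p 2) := pow_le_card_irrSet hp3 two_pos
  have hgood : ∀ q ∈ irrSet p 2, p ^ m ≤ 2 * #(good q) := fun q hq =>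
    card_good_tuples_ge hpm (t q)
  calc p ^ (n - 1) = p ^ 2 * p ^ m := by rw [← pow_add]; congr 1; omega
    _ ≤ 4 * #(irrSet p 2) * p ^ m := Nat.mul_le_mul_right _ hirr
    _ = 4 * (#(irrSet p 2) * p ^ m) := mul_assoc ..
    _ ≤ 4 * (2 * #pairs) := by
        refine Nat.mul_le_mul_left 4 ?_
        rw [card_sigma, mul_sum, ← smul_eq_mul]
        exact card_nsmul_le_sum _ _ _ hgood
    _ ≤ 4 * (2 * (n ^ n * #(withConstant (swapType p n) v))) := by
        refine Nat.mul_le_mul_left 4 (Nat.mul_le_mul_left 2 ?_)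
        exact (card_le_mul_card_image (f := out) pairs _ hfibre).trans
          (Nat.mul_le_mul_left _ (card_le_card himage))
    _ = _ := by ring

end FA.GroupGalois

end
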