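import Fermat.Agent.GroupGalois.Companion
import Fermat.Agent.GroupGalois.Types
import Fermat.Agent.GroupSieve.LargeSieve
import Fermat.Agent.VanDerWaerden.Main

/-!
# The generic Galois group in `SL_n (ℤ)`

By property (T) the large sieve applies to `SL_n (ℤ)`, `n ≥ 3`, so almost all words have, modulo
some primes, each of the three factorisation types which force the symmetric Galois group.
-/

set_option autoImplicit false

noncomputable section

namespace FA.GroupGalois

open Finset Fermat.Agent.VanDerWaerden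
open scoped Classical

variable {n : ℕ}

/-- The lower coefficients of the characteristic polynomial. -/
def coeffs {R : Type*} [CommRing R] (g : SLn n R) : Fin n → R := fun i => g.1.charpoly.coeff i

theorem monicOf_coeffs {R : Type*} [CommRing R] [Nontrivial R] (g : SLn n R) :
    monicOf (coeffs g) = g.1.charpoly :=
  exists_monicOf (Matrix.charpoly_monic _) (by simp)

theorem coeffs_red (m : ℕ) (g : SLn n ℤ) :
    coeffs (red n m g) = fun i => ((coeffs g i : ℤ) : ZMod m) := by
  funext i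
  show ((g.1.map (Int.castRingHom (ZMod m))).charpoly).coeff i = _
  rw [Matrix.charpoly_map, Polynomial.coeff_map]
  rfl

theorem coeffs_zero [NeZero n] {R : Type*} [CommRing R] (g : SLn n R) :
    coeffs g 0 = (-1) ^ n := by
  have h := Matrix.det_eq_sign_charpoly_coeff g.1
  rw [g.2, Fintype.card_fin] at h
  calc coeffs g 0 = (-1) ^ n * ((-1) ^ n * g.1.charpoly.coeff 0) := by
        rw [← mul_assoc, ← mul_pow, neg_one_mul, neg_neg, one_pow, one_mul]
        rfl
    _ = (-1) ^ n := by rw [← h, mul_one]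

theorem card_SLn_le {p : ℕ} [Fact p.Prime] :
    Fintype.card (SLn n (ZMod p)) ≤ p ^ (n * n) := by
  refine (Fintype.card_le_of_injective (fun g : SLn n (ZMod p) => fun x : Fin n × Fin n =>
    g.1 x.1 x.2) fun g g' e => Subtype.ext (Matrix.ext fun a b => congrFun e (a, b))).trans_eq ?_
  rw [Fintype.card_fun, Fintype.card_prod, Fintype.card_fin, ZMod.card]

/-- A type with a positive proportion of the coefficients is hit by a positive proportion of
`SL_n (𝔽_p)`. -/
theorem density_le [NeZero n] {p : ℕ} [Fact p.Prime] {T : Finset (Fin n → ZMod p)} {K : ℕ}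
    (hK : 0 < K) (hT : p ^ (n - 1) ≤ K * #(withConstant T ((-1) ^ n))) :
    (#(univ.filter fun g : SLn n (ZMod p) => coeffs g ∉ T) : ℝ) ≤
      (1 - 1 / (2 * (K : ℝ))) * Fintype.card (SLn n (ZMod p)) := by
  have hp : 2 ≤ p := (Fact.out : p.Prime).two_le
  set good := univ.filter fun g : SLn n (ZMod p) => coeffs g ∈ T
  set G := Fintype.card (SLn n (ZMod p))
  have h := card_charpoly_mem_ge (p := p) (NeZero.pos n) (T := withConstant T ((-1) ^ n))
    fun a ha => (mem_filter.1 ha).2
  have hsub : p ^ n * #(univ.filter fun g : SLn n (ZMod p) =>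
      (fun i : Fin n => g.1.charpoly.coeff i) ∈ withConstant T ((-1) ^ n)) ≤ p ^ n * #good :=
    Nat.mul_le_mul_left _ (card_le_card fun g hg =>
      mem_filter.2 ⟨mem_univ _, (mem_filter.1 (mem_filter.1 hg).2).1⟩)
  have h1 : (p - 1) * G * p ^ (n - 1) ≤ p ^ n * (K * #good) := by
    refine (Nat.mul_le_mul_left _ hT).trans ?_
    rw [mul_left_comm _ K, mul_left_comm _ K]
    exact Nat.mul_le_mul_left K (h.trans hsub)
  rw [show p ^ n * (K * #good) = p * (K * #good) * p ^ (n - 1) by
    rw [show p ^ n = p ^ (n - 1) * p by rw [← pow_succ, Nat.sub_add_cancel (NeZero.pos n)]]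
    ring] at h1
  have h2 : (p - 1) * G ≤ p * (K * #good) :=
    Nat.le_of_mul_le_mul_right h1 (pow_pos (by omega) _)
  have h3 : G ≤ 2 * K * #good := by
    by_contra! hlt
    have h4 := Nat.mul_le_mul_left p hlt
    obtain ⟨p', rfl⟩ : ∃ p', p = p' + 2 := ⟨p - 2, by omega⟩
    rw [show p' + 2 - 1 = p' + 1 from by omega] at h2
    nlinarith
  have hK' : (0 : ℝ) < K := Nat.cast_pos.2 hK
  have h5 : (G : ℝ) ≤ 2 * K * #good := by exact_mod_cast h3
  have hsum : (#good : ℝ) + #(univ.filter fun g : SLn n (ZMod p) => coeffs g ∉ T) = G := by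
    exact_mod_cast card_filter_add_card_filter_not (s := (univ : Finset (SLn n (ZMod p))))
      fun g => coeffs g ∈ T
  have h6 : 1 / (2 * (K : ℝ)) * G ≤ #good := by
    rw [div_mul_eq_mul_div, div_le_iff₀ (by positivity)]
    linarith
  rw [sub_mul, one_mul]
  linarith

/-- **The generic Galois group is `S_n`.** -/
theorem generic_galois (hn : 3 ≤ n) {S : Finset (SLn n ℤ)} (h1 : (1 : SLn n ℤ) ∈ S)
    (hgen : Subgroup.closure (S : Set (SLn n ℤ)) = ⊤) :
    ∃ C ρ : ℝ, 0 < ρ ∧ ρ < 1 ∧ ∀ (k : ℕ) (A : Finset (Fin k → S)),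
      (∀ w ∈ A, ¬ HasSymmetricGroup (coeffs (GroupSieve.wordProd w))) →
        (#A : ℝ) ≤ C * ρ ^ k * (#S : ℝ) ^ k := by
  have : NeZero n := ⟨by omega⟩
  have hfact : ∀ p : Nat.Primes, Fact (p : ℕ).Prime := fun p => ⟨p.2⟩
  obtain ⟨θ, hθ0, hθ1, hequi⟩ := equidistributed hn h1 hgen
  set K := 8 * n ^ n with hK
  set N := 8 * n ^ 2 with hN
  have hKpos : 0 < K := by positivity
  obtain ⟨C, ρ, h0, hlt, hls⟩ := GroupSieve.large_sieve (S := S)
    (G := fun p : Nat.Primes => SLn n (ZMod (p : ℕ))) (fun p => red n (p : ℕ)) (D := n * n)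
    (N := N) (fun p => card_SLn_le) hθ0 hθ1
    (fun p q _ hqp _ k z => hequi p q (Nat.ne_of_gt hqp) k z)
    (η := 1 / (2 * (K : ℝ))) (by positivity)
  refine ⟨3 * C, ρ, h0, hlt, fun k A hA => ?_⟩
  -- the three sieves
  have hone : ∀ (T : ∀ p : Nat.Primes, Finset (Fin n → ZMod (p : ℕ))),
      (∀ p : Nat.Primes, N < p → (p : ℕ) ^ (n - 1) ≤ K * #(withConstant (T p) ((-1) ^ n))) →
      (#(A.filter fun w => ∀ p : Nat.Primes, N < p →
          (fun i => ((coeffs (GroupSieve.wordProd w) i : ℤ) : ZMod (p : ℕ))) ∉ T p) : ℝ) ≤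
        C * ρ ^ k * (#S : ℝ) ^ k := by
    intro T hT
    refine hls (fun p => univ.filter fun g => coeffs g ∉ T p)
      (fun p hp => density_le hKpos (hT p hp)) k _ fun w hw p hp => mem_filter.2 ⟨mem_univ _, ?_⟩
    rw [coeffs_red]
    exact (mem_filter.1 hw).2 p hp
  have h2n : 2 * n ≤ K := by
    have := Nat.le_self_pow (show n ≠ 0 by omega) n
    omega
  have hp4 : ∀ {p : ℕ}, N < p → 4 ≤ p := fun {p} hp => by nlinarith
  have e₁ := hone (fun p => irrSet (p : ℕ) n) fun p hp => (card_irr_ge (hp4 hp) hn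
    (pow_ne_zero _ (neg_ne_zero.2 one_ne_zero))).trans (Nat.mul_le_mul_right _ h2n)
  have e₂ := hone (fun p => rootSetType (p : ℕ) n) fun p hp =>
    (card_rootType_ge (by linarith [hp4 hp]) hn _).trans (Nat.mul_le_mul_right _ h2n)
  have e₃ := hone (fun p => swapType (p : ℕ) n) fun p hp => card_swapType_ge hn hp.le _
  refine le_trans (Nat.cast_le.2 (card_le_card (t := (A.filter fun w => ∀ p : Nat.Primes, N < p →
      (fun i => ((coeffs (GroupSieve.wordProd w) i : ℤ) : ZMod (p : ℕ))) ∉ irrSet (p : ℕ) n) ∪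
    (A.filter fun w => ∀ p : Nat.Primes, N < p →
      (fun i => ((coeffs (GroupSieve.wordProd w) i : ℤ) : ZMod (p : ℕ))) ∉ rootSetType (p : ℕ) n) ∪
    (A.filter fun w => ∀ p : Nat.Primes, N < p →
      (fun i => ((coeffs (GroupSieve.wordProd w) i : ℤ) : ZMod (p : ℕ))) ∉ swapType (p : ℕ) n))
    fun w hw => ?_)) ?_
  · by_contra hcon
    simp only [mem_union, mem_filter, hw, true_and, not_or, not_forall, not_not] at hcon
    obtain ⟨⟨⟨p₁, -, h₁⟩, p₂, -, h₂⟩, p₃, -, h₃⟩ := hcon
    exact hA w hw (hasSymmetricGroup_of_types (by omega) h₁ (fun _ => h₂) h₃)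
  · refine le_trans (Nat.cast_le.2 ((card_union_le _ _).trans
      (Nat.add_le_add_right (card_union_le _ _) _))) ?_
    push_cast
    linarith

end FA.GroupGalois

end
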